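import Mathlib

/-!
# Row S56, wall W-FLAT-SS, piece FL-CYC (C4, abstract) — helper769

Mathlib only.  Main result: `Fermat.Agent.S56.H769.flCyc`, whose statement is verbatim the body
of `Fermat.Agent.S56.H846.FLCycStatement` (so `flCyc` proves that `Prop` by `exact`).

## Proof

* `exists_cyclic_vector`: a linear endomorphism `A` of a finite-dimensional space such that on
  every `A`-stable subspace `U` no nonzero polynomial of degree `< dim U` kills `U` has all its
  stable subspaces cyclic (`U = K[A] v`).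
* `twFrob`: `A x = d x^(p²)` on a finite field `κ`, linear over a subfield `F` fixed by
  `x ↦ x^(p²)`; `twFrob_indep`: if `p² ≤ |F|` and `d ≠ 0` the hypothesis above holds
  (a `p²`-linearised polynomial of degree `(p²)^(deg g)` has at most that many roots).
* `exists_theta_submodule`: the image under `θ` of a subgroup `G ≤ W` stable under `τ₀` is a
  vector space over the subfield generated by `μ`.
* `flCyc`: `F = 𝔽_p(μ) ⊇ 𝔽_{p²}` because `ord μ = m > 2` divides `p + 1`; `φ²` acts on `θ(W)`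
  through `A = twFrob` with `d = c^(1+p)`; a cyclic vector `θ(w₀)` of `θ(W)` does the job.
-/

set_option autoImplicit false
set_option linter.unusedSectionVars false

namespace Fermat.Agent.S56.H769

open Polynomial Module

section CycVec

variable {K E : Type*} [Field K] [AddCommGroup E] [Module K E]

/-- Evaluation `g ↦ g(A) v`. -/
noncomputable def evalAt (A : Module.End K E) (v : E) : K[X] →ₗ[K] E :=
  (LinearMap.applyₗ v : Module.End K E →ₗ[K] E) ∘ₗ
    (aeval A : K[X] →ₐ[K] Module.End K E).toLinearMap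

theorem evalAt_apply (A : Module.End K E) (v : E) (g : K[X]) : evalAt A v g = aeval A g v := rfl

/-- The cyclic submodule `K[A] v`. -/
noncomputable def cyc (A : Module.End K E) (v : E) : Submodule K E := LinearMap.range (evalAt A v)

theorem mem_cyc {A : Module.End K E} {v x : E} :
    x ∈ cyc A v ↔ ∃ g : K[X], aeval A g v = x := Iff.rfl

theorem self_mem_cyc (A : Module.End K E) (v : E) : v ∈ cyc A v :=
  ⟨1, by rw [evalAt_apply, map_one, Module.End.one_apply]⟩

theorem pow_mem_of_stable {A : Module.End K E} {S : Submodule K E} (hS : ∀ x ∈ S, A x ∈ S)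
    (n : ℕ) {x : E} (hx : x ∈ S) : (A ^ n) x ∈ S := by
  induction n with
  | zero => simpa using hx
  | succ n ih => rw [pow_succ', Module.End.mul_apply]; exact hS _ ih

theorem aeval_mem_of_stable {A : Module.End K E} {S : Submodule K E} (hS : ∀ x ∈ S, A x ∈ S)
    (g : K[X]) {x : E} (hx : x ∈ S) : aeval A g x ∈ S := by
  rw [aeval_eq_sum_range, LinearMap.sum_apply]
  refine S.sum_mem fun i _ => ?_
  rw [LinearMap.smul_apply]
  exact S.smul_mem _ (pow_mem_of_stable hS i hx)

theorem cyc_le {A : Module.End K E} {S : Submodule K E} (hS : ∀ x ∈ S, A x ∈ S) {v : E}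
    (hv : v ∈ S) : cyc A v ≤ S := by
  rintro x ⟨g, rfl⟩
  exact aeval_mem_of_stable hS g hv

theorem aeval_mul_apply (A : Module.End K E) (g h : K[X]) (x : E) :
    aeval A (g * h) x = aeval A g (aeval A h x) := by
  rw [map_mul, Module.End.mul_apply]

theorem aeval_comm_apply (A : Module.End K E) (g h : K[X]) (x : E) :
    aeval A g (aeval A h x) = aeval A h (aeval A g x) := by
  rw [← aeval_mul_apply, ← aeval_mul_apply, mul_comm]

theorem aeval_X_apply (A : Module.End K E) (x : E) : aeval A (X : K[X]) x = A x := by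
  rw [aeval_X]

theorem cyc_stable (A : Module.End K E) (v : E) : ∀ x ∈ cyc A v, A x ∈ cyc A v := by
  rintro x ⟨g, rfl⟩
  exact ⟨X * g, by rw [evalAt_apply, evalAt_apply, aeval_mul_apply, aeval_X]⟩

/-- Key step (F2): an `A`-stable `S ⊇ P(A) U` containing some `s ∈ U ∖ P(A) U` contains `U`,
provided `dim (U ∩ ker P(A)) ≤ deg P`, `P` irreducible. -/
theorem le_of_not_mem_map [FiniteDimensional K E] (A : Module.End K E) (U : Submodule K E)
    (hU : ∀ x ∈ U, A x ∈ U) (P : K[X]) (hP : Irreducible P)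
    (hN : finrank K (LinearMap.ker ((aeval A P).domRestrict U)) ≤ P.natDegree)
    (S : Submodule K E) (hS : ∀ x ∈ S, A x ∈ S) (hle : U.map (aeval A P) ≤ S)
    (s : E) (hsU : s ∈ U) (hsS : s ∈ S) (hs : s ∉ U.map (aeval A P)) : U ≤ S := by
  set U' := U.map (aeval A P) with hU'
  have hU'U : U' ≤ U := by
    rintro _ ⟨y, hy, rfl⟩
    exact aeval_mem_of_stable hU P hy
  have hU'st : ∀ x ∈ U', A x ∈ U' := by
    rintro _ ⟨y, hy, rfl⟩
    refine ⟨A y, hU y hy, ?_⟩
    rw [← aeval_X_apply A y, aeval_comm_apply, aeval_X_apply]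
  -- (★) no nonzero `g` of degree `< deg P` maps `s` into `U'`
  have hstar : ∀ g : K[X], g ≠ 0 → g.natDegree < P.natDegree → aeval A g s ∉ U' := by
    intro g hg0 hlt hmem
    have hndvd : ¬ P ∣ g := fun hdvd => by
      have := Polynomial.natDegree_le_of_dvd hdvd hg0
      omega
    obtain ⟨a, b, hab⟩ := (hP.coprime_iff_not_dvd.2 hndvd)
    apply hs
    have h1 : s = aeval A (a * P) s + aeval A (b * g) s := by
      rw [← LinearMap.add_apply, ← map_add, hab, map_one, Module.End.one_apply]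
    rw [h1]
    refine U'.add_mem ?_ ?_
    · rw [aeval_mul_apply]
      exact aeval_mem_of_stable hU'st a ⟨s, hsU, rfl⟩
    · rw [aeval_mul_apply]
      exact aeval_mem_of_stable hU'st b hmem
  -- the subspace `D` spanned by `g(A) s`, `deg g < deg P`
  set d := P.natDegree with hd
  set L : (degreeLT K d) →ₗ[K] E := (evalAt A s).domRestrict (degreeLT K d) with hL
  have hLapply : ∀ g : degreeLT K d, L g = aeval A (g : K[X]) s := fun g => rfl
  have hdeg_lt : ∀ g : degreeLT K d, (g : K[X]) ≠ 0 → (g : K[X]).natDegree < d := by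
    intro g hg0
    have := mem_degreeLT.1 g.2
    exact (natDegree_lt_iff_degree_lt hg0).2 this
  have hLinj : Function.Injective L := by
    rw [← LinearMap.ker_eq_bot, LinearMap.ker_eq_bot']
    intro g hg
    by_contra hg0
    have hg0' : (g : K[X]) ≠ 0 := fun h => hg0 (Subtype.ext h)
    exact hstar g hg0' (hdeg_lt g hg0') (by rw [← hLapply, hg]; exact U'.zero_mem)
  set D := LinearMap.range L with hD
  have hDrank : finrank K D = d := by
    rw [hD, ← LinearEquiv.finrank_eq (LinearEquiv.ofInjective L hLinj),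
      LinearEquiv.finrank_eq (degreeLTEquiv K d), Module.finrank_fin_fun]
  have hdisj : U' ⊓ D = ⊥ := by
    rw [eq_bot_iff]
    rintro x ⟨hxU', g, rfl⟩
    by_contra hx0
    have hg0' : (g : K[X]) ≠ 0 := by
      intro h
      apply hx0
      show L g ∈ (⊥ : Submodule K E)
      rw [hLapply, h, map_zero, LinearMap.zero_apply]
      exact Submodule.zero_mem _
    exact hstar g hg0' (hdeg_lt g hg0') hxU'
  have hDU : D ≤ U := by
    rintro _ ⟨g, rfl⟩
    exact aeval_mem_of_stable hU _ hsU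
  have hDS : D ≤ S := by
    rintro _ ⟨g, rfl⟩
    exact aeval_mem_of_stable hS _ hsS
  have hrank : finrank K (U' ⊔ D : Submodule K E) = finrank K U' + d := by
    have := Submodule.finrank_sup_add_finrank_inf_eq U' D
    rw [hdisj, finrank_bot, add_zero, hDrank] at this
    exact this
  have hrn : finrank K U' + finrank K (LinearMap.ker ((aeval A P).domRestrict U)) =
      finrank K U := by
    have := LinearMap.finrank_range_add_finrank_ker ((aeval A P).domRestrict U)
    rwa [LinearMap.range_domRestrict] at this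
  have hTU : U' ⊔ D ≤ U := sup_le hU'U hDU
  have heq : U' ⊔ D = U := by
    refine Submodule.eq_of_le_of_finrank_le hTU ?_
    rw [hrank, ← hrn]
    omega
  rw [← heq]
  exact sup_le hle hDS


/-- **Cyclic vector lemma.**  If on every `A`-stable subspace `U` no nonzero polynomial of
degree `< dim U` kills `U`, then every `A`-stable subspace is cyclic. -/
theorem exists_cyclic_vector [FiniteDimensional K E] (A : Module.End K E)
    (hH : ∀ U : Submodule K E, (∀ x ∈ U, A x ∈ U) → ∀ g : K[X], g ≠ 0 →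
      g.natDegree < finrank K U → ∃ x ∈ U, aeval A g x ≠ 0)
    (U : Submodule K E) (hU : ∀ x ∈ U, A x ∈ U) : ∃ v ∈ U, U ≤ cyc A v := by
  induction' hn : finrank K U using Nat.strong_induction_on with n ih generalizing U
  by_cases hbot : U = ⊥
  · exact ⟨0, U.zero_mem, by rw [hbot]; exact bot_le⟩
  obtain ⟨u, huU, hu0⟩ := Submodule.exists_mem_ne_zero_of_ne_bot hbot
  classical
  -- a nonzero annihilating polynomial of `u` of minimal degree
  have hex : ∃ n, ∃ g : K[X], g ≠ 0 ∧ aeval A g u = 0 ∧ g.natDegree = n :=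
    ⟨_, A.charpoly, (LinearMap.charpoly_monic A).ne_zero, by
      rw [LinearMap.aeval_self_charpoly]; rfl, rfl⟩
  obtain ⟨g, hg0, hgu, hgn⟩ := Nat.find_spec hex
  have hmin : ∀ h : K[X], h ≠ 0 → h.natDegree < g.natDegree → aeval A h u ≠ 0 := by
    intro h hh0 hlt hhu
    exact Nat.find_min hex (hgn ▸ hlt) ⟨h, hh0, hhu, rfl⟩
  have hgunit : ¬ IsUnit g := by
    intro hunit
    obtain ⟨a, ha, rfl⟩ := Polynomial.isUnit_iff.1 hunit
    rw [aeval_C, Module.algebraMap_end_apply] at hgu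
    exact hu0 ((smul_eq_zero.1 hgu).resolve_left ha.ne_zero)
  obtain ⟨P, hPirr, hPdvd⟩ := WfDvdMonoid.exists_irreducible_factor hgunit hg0
  obtain ⟨h, rfl⟩ := hPdvd
  have hh0 : h ≠ 0 := right_ne_zero_of_mul hg0
  have hP0 : P ≠ 0 := hPirr.ne_zero
  have hdeg : h.natDegree < (P * h).natDegree := by
    rw [natDegree_mul hP0 hh0]
    have := hPirr.natDegree_pos
    omega
  have hu'0 : aeval A h u ≠ 0 := hmin h hh0 hdeg
  have hu'U : aeval A h u ∈ U := aeval_mem_of_stable hU h huU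
  have hPu' : aeval A P (aeval A h u) = 0 := by
    rw [← aeval_mul_apply]; exact hgu
  -- `U' = P(A) U`, `N = U ∩ ker P(A)`
  set U' := U.map (aeval A P) with hU'
  have hU'U : U' ≤ U := by
    rintro _ ⟨y, hy, rfl⟩
    exact aeval_mem_of_stable hU P hy
  have hU'st : ∀ x ∈ U', A x ∈ U' := by
    rintro _ ⟨y, hy, rfl⟩
    refine ⟨A y, hU y hy, ?_⟩
    rw [← aeval_X_apply A y, aeval_comm_apply, aeval_X_apply]
  set f := (aeval A P).domRestrict U with hf
  have hrn : finrank K U' + finrank K (LinearMap.ker f) = finrank K U := by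
    have := LinearMap.finrank_range_add_finrank_ker f
    rwa [LinearMap.range_domRestrict] at this
  -- `N ≠ 0`
  have hkerpos : 0 < finrank K (LinearMap.ker f) := by
    rw [Module.finrank_pos_iff_exists_ne_zero]
    refine ⟨⟨⟨aeval A h u, hu'U⟩, ?_⟩, ?_⟩
    · rw [LinearMap.mem_ker]; exact hPu'
    · intro h0
      apply hu'0
      have := congrArg (fun x : LinearMap.ker f => ((x : U) : E)) h0
      simpa using this
  -- `dim N ≤ deg P` from the hypothesis
  set N : Submodule K E := (LinearMap.ker f).map U.subtype with hNdef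
  have hNrank : finrank K N = finrank K (LinearMap.ker f) :=
    Submodule.finrank_map_subtype_eq U (LinearMap.ker f)
  have hNmem : ∀ x, x ∈ N ↔ x ∈ U ∧ aeval A P x = 0 := by
    intro x
    constructor
    · rintro ⟨y, hy, rfl⟩
      exact ⟨y.2, LinearMap.mem_ker.1 hy⟩
    · rintro ⟨hxU, hx0⟩
      exact ⟨⟨x, hxU⟩, LinearMap.mem_ker.2 hx0, rfl⟩
  have hNst : ∀ x ∈ N, A x ∈ N := by
    intro x hx
    rw [hNmem] at hx ⊢
    refine ⟨hU x hx.1, ?_⟩
    rw [← aeval_X_apply A x, aeval_comm_apply, hx.2, map_zero]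
  have hNle : finrank K (LinearMap.ker f) ≤ P.natDegree := by
    by_contra hcon
    rw [not_le, ← hNrank] at hcon
    obtain ⟨x, hxN, hx⟩ := hH N hNst P hP0 hcon
    exact hx ((hNmem x).1 hxN).2
  -- induction hypothesis for `U'`
  obtain ⟨v', hv'U', hv'⟩ := ih (finrank K U') (by omega) U' hU'st rfl
  obtain ⟨v, hvU, hv⟩ := hv'U'
  -- every `w ∈ U` with `P(A) w = v'` outside `U'` is a cyclic vector
  have hkey : ∀ w ∈ U, aeval A P w = v' → w ∉ U' → U ≤ cyc A w := by
    intro w hwU hw hwU'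
    refine le_of_not_mem_map A U hU P hPirr hNle (cyc A w) (cyc_stable A w) ?_ w hwU
      (self_mem_cyc A w) hwU'
    refine hv'.trans (cyc_le (cyc_stable A w) ?_)
    exact ⟨P, hw⟩
  by_cases hvU' : v ∈ U'
  · by_cases huU' : v + aeval A h u ∈ U'
    · -- contradiction
      exfalso
      have hu'U' : aeval A h u ∈ U' := by
        have := U'.sub_mem huU' hvU'
        simpa using this
      obtain ⟨a, ha⟩ := hv' hvU'
      obtain ⟨b, hb⟩ := hv' hu'U'
      rw [evalAt_apply, ← hv] at ha hb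
      -- `u' = b(A) P(A) v = b(A) P(A) a(A) P(A) v = a(A) P(A) u' = 0`
      apply hu'0
      have h1 : aeval A h u = aeval A a (aeval A P (aeval A h u)) :=
        calc aeval A h u = aeval A b (aeval A P v) := hb.symm
          _ = aeval A b (aeval A P (aeval A a (aeval A P v))) := by rw [ha]
          _ = aeval A a (aeval A P (aeval A b (aeval A P v))) := by
              simp only [← aeval_mul_apply]
              congr 2
              ring
          _ = aeval A a (aeval A P (aeval A h u)) := by rw [hb]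
      rw [h1, hPu', map_zero]
    · refine ⟨v + aeval A h u, U.add_mem hvU hu'U, hkey _ (U.add_mem hvU hu'U) ?_ huU'⟩
      rw [map_add, hPu', add_zero]
      exact hv
  · exact ⟨v, hvU, hkey v hvU hv hvU'⟩

end CycVec

section FiniteField

variable {κ : Type*} [Field κ] (p : ℕ) [Fact p.Prime] [CharP κ p]

/-- The twisted Frobenius `x ↦ d x^(p²)`, linear over a subfield fixed by `x ↦ x^(p²)`. -/
noncomputable def twFrob (F : Subfield κ) (hF : ∀ k ∈ F, k ^ (p ^ 2) = k) (d : κ) :
    Module.End F κ where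
  toFun x := d * x ^ (p ^ 2)
  map_add' x y := by rw [add_pow_char_pow, mul_add]
  map_smul' k x := by
    simp only [RingHom.id_apply]
    rw [Algebra.smul_def, Algebra.smul_def, mul_pow]
    show d * ((k : κ) ^ (p ^ 2) * x ^ (p ^ 2)) = (k : κ) * (d * x ^ (p ^ 2))
    rw [hF k k.2]
    ring

theorem twFrob_apply (F : Subfield κ) (hF : ∀ k ∈ F, k ^ (p ^ 2) = k) (d x : κ) :
    twFrob p F hF d x = d * x ^ (p ^ 2) := rfl

/-- The constants `dᵢ` with `Aⁱ x = dᵢ x^(qⁱ)`. -/
def dseq (d : κ) : ℕ → κ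
  | 0 => 1
  | (i + 1) => d * dseq d i ^ (p ^ 2)

theorem dseq_ne_zero {d : κ} (hd : d ≠ 0) (i : ℕ) : dseq p d i ≠ 0 := by
  induction i with
  | zero => exact one_ne_zero
  | succ i ih => exact mul_ne_zero hd (pow_ne_zero _ ih)

theorem twFrob_pow_apply (F : Subfield κ) (hF : ∀ k ∈ F, k ^ (p ^ 2) = k) (d x : κ) (i : ℕ) :
    (twFrob p F hF d ^ i) x = dseq p d i * x ^ ((p ^ 2) ^ i) := by
  induction i with
  | zero => simp [dseq]
  | succ i ih =>
    rw [pow_succ', Module.End.mul_apply, ih, twFrob_apply, dseq, mul_pow, ← pow_mul, pow_succ]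
    ring

/-- The `p²`-linearised polynomial attached to `g`. -/
noncomputable def linPoly (F : Subfield κ) (d : κ) (g : F[X]) : κ[X] :=
  ∑ i ∈ Finset.range (g.natDegree + 1), C ((g.coeff i : κ) * dseq p d i) * X ^ ((p ^ 2) ^ i)

theorem eval_linPoly (F : Subfield κ) (hF : ∀ k ∈ F, k ^ (p ^ 2) = k) (d : κ) (g : F[X])
    (x : κ) : (linPoly p F d g).eval x = aeval (twFrob p F hF d) g x := by
  rw [linPoly, eval_finsetSum, aeval_eq_sum_range, LinearMap.sum_apply]
  refine Finset.sum_congr rfl fun i _ => ?_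
  rw [LinearMap.smul_apply, twFrob_pow_apply, eval_mul, eval_C, eval_pow, eval_X,
    Algebra.smul_def]
  show _ = (g.coeff i : κ) * _
  ring

theorem natDegree_linPoly_le (F : Subfield κ) (d : κ) (g : F[X]) :
    (linPoly p F d g).natDegree ≤ (p ^ 2) ^ g.natDegree := by
  rw [linPoly]
  refine natDegree_sum_le_of_forall_le _ _ fun i hi => ?_
  refine (natDegree_C_mul_X_pow_le _ _).trans ?_
  have hp : 1 ≤ p ^ 2 := Nat.one_le_pow _ _ (Fact.out : p.Prime).pos
  exact Nat.pow_le_pow_right hp (Nat.lt_succ_iff.1 (Finset.mem_range.1 hi))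

theorem linPoly_ne_zero (F : Subfield κ) {d : κ} (hd : d ≠ 0) {g : F[X]} (hg : g ≠ 0) :
    linPoly p F d g ≠ 0 := by
  intro h0
  have hcoeff : (linPoly p F d g).coeff ((p ^ 2) ^ g.natDegree) =
      (g.coeff g.natDegree : κ) * dseq p d g.natDegree := by
    rw [linPoly, finsetSum_coeff]
    rw [Finset.sum_eq_single g.natDegree]
    · rw [coeff_C_mul_X_pow, if_pos rfl]
    · intro i _ hi
      rw [coeff_C_mul_X_pow, if_neg]
      intro heq
      have hp2 : 2 ≤ p ^ 2 := by
        have := (Fact.out : p.Prime).two_le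
        nlinarith
      exact hi (Nat.pow_right_injective hp2 heq).symm
    · intro hn
      exact absurd (Finset.mem_range.2 (Nat.lt_succ_self _)) hn
  rw [h0, coeff_zero] at hcoeff
  have h1 : (g.coeff g.natDegree : κ) ≠ 0 := by
    intro h
    have : g.coeff g.natDegree = 0 := Subtype.ext h
    exact hg (leadingCoeff_eq_zero.1 this)
  exact mul_ne_zero h1 (dseq_ne_zero p hd _) hcoeff.symm

/-- Hypothesis (H) of the cyclic vector lemma for the twisted Frobenius. -/
theorem twFrob_indep [Finite κ] (F : Subfield κ) (hF : ∀ k ∈ F, k ^ (p ^ 2) = k)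
    (hcard : p ^ 2 ≤ Nat.card F) {d : κ} (hd : d ≠ 0)
    (U : Submodule F κ) (g : F[X]) (hg : g ≠ 0) (hlt : g.natDegree < finrank F U) :
    ∃ x ∈ U, aeval (twFrob p F hF d) g x ≠ 0 := by
  classical
  by_contra hcon
  push Not at hcon
  have : Fintype κ := Fintype.ofFinite κ
  have hQ0 := linPoly_ne_zero p F hd hg
  have hroots : ((U : Set κ).toFinset).val ⊆ (linPoly p F d g).roots := by
    intro x hx
    rw [Finset.mem_val, Set.mem_toFinset] at hx
    rw [mem_roots hQ0, IsRoot, eval_linPoly p F hF]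
    exact hcon x hx
  have h1 := card_le_degree_of_subset_roots hroots
  have h2 := natDegree_linPoly_le p F d g
  have h3 : ((U : Set κ).toFinset).card = Nat.card F ^ finrank F U := by
    rw [Set.toFinset_card, ← Nat.card_eq_fintype_card]
    exact Module.natCard_eq_pow_finrank (K := F) (V := U)
  have h4 : (p ^ 2) ^ (g.natDegree + 1) ≤ Nat.card F ^ finrank F U := by
    calc (p ^ 2) ^ (g.natDegree + 1) ≤ (p ^ 2) ^ finrank F U :=
          Nat.pow_le_pow_right (Nat.one_le_pow _ _ (Fact.out : p.Prime).pos) hlt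
      _ ≤ Nat.card F ^ finrank F U := Nat.pow_le_pow_left hcard _
  have h5 : (p ^ 2) ^ g.natDegree < (p ^ 2) ^ (g.natDegree + 1) := by
    have hp2 : 2 ≤ p ^ 2 := by
      have := (Fact.out : p.Prime).two_le
      nlinarith
    exact Nat.pow_lt_pow_right hp2 (Nat.lt_succ_self _)
  omega

end FiniteField

section Assembly

variable {κ : Type*} [Field κ]

/-- The image `θ(G)` of a subgroup `G ≤ W` stable under conjugation by `τ₀` is a vector space
over the subfield generated by `μ`. -/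
theorem exists_theta_submodule [Finite κ] {Γ : Type*} [Group Γ] (W : Subgroup Γ) (τ₀ : Γ)
    (θ : Γ → κ) (μ : κ)
    (hadd : ∀ w ∈ W, ∀ w' ∈ W, θ (w * w') = θ w + θ w')
    (hτ : ∀ w ∈ W, θ (τ₀ * w * τ₀⁻¹) = μ * θ w)
    (G : Subgroup Γ) (hGW : G ≤ W) (hGτ : ∀ h ∈ G, τ₀ * h * τ₀⁻¹ ∈ G) :
    ∃ S : Submodule (Subfield.closure ({μ} : Set κ)) κ, ∀ x, x ∈ S ↔ ∃ g ∈ G, θ g = x := by
  classical
  have h1 : θ 1 = 0 := by
    have := hadd 1 W.one_mem 1 W.one_mem
    rw [mul_one] at this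
    exact left_eq_add.1 this
  have hinv : ∀ w ∈ W, θ w⁻¹ = -θ w := by
    intro w hw
    have := hadd w hw w⁻¹ (W.inv_mem hw)
    rw [mul_inv_cancel, h1] at this
    exact eq_neg_of_add_eq_zero_right this.symm
  let T : AddSubgroup κ :=
    { carrier := {x | ∃ g ∈ G, θ g = x}
      zero_mem' := ⟨1, G.one_mem, h1⟩
      add_mem' := by
        rintro _ _ ⟨g, hg, rfl⟩ ⟨g', hg', rfl⟩
        exact ⟨g * g', G.mul_mem hg hg', hadd g (hGW hg) g' (hGW hg')⟩
      neg_mem' := by
        rintro _ ⟨g, hg, rfl⟩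
        exact ⟨g⁻¹, G.inv_mem hg, hinv g (hGW hg)⟩ }
  have hTmem : ∀ x, x ∈ T ↔ ∃ g ∈ G, θ g = x := fun x => Iff.rfl
  have hpow : ∀ a : κ, (∀ x ∈ T, a * x ∈ T) → ∀ n : ℕ, ∀ x ∈ T, a ^ n * x ∈ T := by
    intro a ha n
    induction n with
    | zero => intro x hx; simpa using hx
    | succ n ih =>
      intro x hx
      rw [pow_succ, mul_assoc]
      exact ih _ (ha x hx)
  have hsmul : ∀ k ∈ Subfield.closure ({μ} : Set κ), ∀ x ∈ T, k * x ∈ T := by
    intro k hk
    induction hk using Subfield.closure_induction with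
    | mem k hk =>
      rintro _ ⟨g, hg, rfl⟩
      rw [Set.mem_singleton_iff] at hk
      subst hk
      exact ⟨τ₀ * g * τ₀⁻¹, hGτ g hg, hτ g (hGW hg)⟩
    | one => intro x hx; simpa using hx
    | add a b _ _ ha hb =>
      intro x hx
      rw [add_mul]
      exact T.add_mem (ha x hx) (hb x hx)
    | neg a _ ha =>
      intro x hx
      rw [neg_mul]
      exact T.neg_mem (ha x hx)
    | inv a _ ha =>
      intro x hx
      by_cases ha0 : a = 0
      · rw [ha0, inv_zero, zero_mul]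
        exact T.zero_mem
      · have : Fintype κ := Fintype.ofFinite κ
        have h2 := FiniteField.pow_card_sub_one_eq_one a ha0
        have hinv' : a⁻¹ = a ^ (Fintype.card κ - 1 - 1) := by
          have hc : 2 ≤ Fintype.card κ := Fintype.one_lt_card
          have h3 : a ^ (Fintype.card κ - 1 - 1) * a = 1 := by
            rw [← pow_succ]
            have : Fintype.card κ - 1 - 1 + 1 = Fintype.card κ - 1 := by omega
            rw [this, h2]
          exact (eq_inv_of_mul_eq_one_left h3).symm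
        rw [hinv']
        exact hpow a ha _ x hx
    | mul a b _ _ ha hb =>
      intro x hx
      rw [mul_assoc]
      exact ha _ (hb x hx)
  refine ⟨{ T with smul_mem' := ?_ }, fun x => Iff.rfl⟩
  intro k x hx
  rw [Algebra.smul_def]
  exact hsmul k k.2 x hx

/-- **FL-CYC** (C4, abstract): verbatim the body of `Fermat.Agent.S56.H846.FLCycStatement`
(`Fermat/Agent/S56/H846/FLCnt/Spec.lean`).  `κ` a finite field of characteristic `p`,
`θ : W ↪ κ` additive, tame inertia acting through multiplication by `μ` of exact order `m`,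
`2 < m ∣ p + 1`, Frobenius acting `p`-semilinearly.  Then `W` is generated, as a group normalised
by `τ₀` and `φ²`, by a single element. -/
theorem flCyc :
    ∀ (p : ℕ) [Fact p.Prime] (Γ : Type) [Group Γ] [Finite Γ] (κ : Type) [Field κ] [Finite κ]
      [CharP κ p] (W : Subgroup Γ) (τ₀ φ : Γ) (θ : Γ → κ) (μ c : κ) (m : ℕ),
      W.Normal →
      (∀ w ∈ W, ∀ w' ∈ W, θ (w * w') = θ w + θ w') →
      (∀ w ∈ W, θ w = 0 → w = 1) →
      (∀ w ∈ W, θ (τ₀ * w * τ₀⁻¹) = μ * θ w) →
      (∀ w ∈ W, θ (φ * w * φ⁻¹) = c * θ w ^ p) →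
      (∀ j : ℕ, μ ^ j = 1 ↔ m ∣ j) → m ∣ p + 1 → 2 < m →
      ∃ w₀ ∈ W, ∀ H : Subgroup Γ, w₀ ∈ H → (∀ h ∈ H, τ₀ * h * τ₀⁻¹ ∈ H) →
        (∀ h ∈ H, φ ^ 2 * h * (φ ^ 2)⁻¹ ∈ H) → W ≤ H := by
  intro p _ Γ _ _ κ _ _ _ W τ₀ φ θ μ c m hW hadd hinj hτ hφ hμ hm hm2
  classical
  by_cases hbot : W = ⊥
  · exact ⟨1, W.one_mem, fun H _ _ _ => by rw [hbot]; exact bot_le⟩
  obtain ⟨w₁, hw₁W, hw₁⟩ : ∃ w ∈ W, w ≠ 1 := (Subgroup.ne_bot_iff_exists_ne_one).1 hbot |>.elim
    fun w hw => ⟨w.1, w.2, fun h => hw (Subtype.ext h)⟩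
  have hp := (Fact.out : p.Prime)
  have h1 : θ 1 = 0 := by
    have := hadd 1 W.one_mem 1 W.one_mem
    rw [mul_one] at this
    exact left_eq_add.1 this
  have hinv : ∀ w ∈ W, θ w⁻¹ = -θ w := by
    intro w hw
    have := hadd w hw w⁻¹ (W.inv_mem hw)
    rw [mul_inv_cancel, h1] at this
    exact eq_neg_of_add_eq_zero_right this.symm
  have hc : c ≠ 0 := by
    intro hc0
    have h2 := hφ w₁ hw₁W
    rw [hc0, zero_mul] at h2
    have h3 := hinj _ (hW.conj_mem w₁ hw₁W φ) h2
    apply hw₁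
    have h4 : w₁ = φ⁻¹ * (φ * w₁ * φ⁻¹) * φ := by group
    rw [h4, h3]
    group
  have hμm : μ ^ m = 1 := (hμ m).2 dvd_rfl
  have hμ0 : μ ≠ 0 := by
    intro h0
    rw [h0, zero_pow (by omega)] at hμm
    exact zero_ne_one hμm
  obtain ⟨q, hq⟩ : ∃ q, p = q + 1 := ⟨p - 1, by have := hp.pos; omega⟩
  have hμp2 : μ ^ (p ^ 2) = μ := by
    have h2 : p ^ 2 = (p + 1) * q + 1 := by rw [hq]; ring
    rw [h2, pow_succ, (hμ _).2 (Dvd.dvd.mul_right hm q), one_mul]
  have hμp : μ ^ p ≠ μ := by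
    intro h
    rw [hq, pow_succ] at h
    have h2 : μ ^ q = 1 := mul_right_cancel₀ hμ0 (h.trans (one_mul μ).symm)
    have h3 : m ∣ q := (hμ q).1 h2
    have h4 : m ∣ 2 := by
      have h5 := Nat.dvd_sub hm h3
      have h6 : p + 1 - q = 2 := by omega
      rwa [h6] at h5
    have := Nat.le_of_dvd (by norm_num) h4
    omega
  set F : Subfield κ := Subfield.closure ({μ} : Set κ) with hFdef
  have hF : ∀ k ∈ F, k ^ (p ^ 2) = k := by
    intro k hk
    have hle : F ≤ RingHom.eqLocusField (iterateFrobenius κ p 2) (RingHom.id κ) := by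
      rw [hFdef, Subfield.closure_le]
      intro x hx
      rw [Set.mem_singleton_iff] at hx
      subst hx
      show iterateFrobenius κ p 2 x = x
      rw [iterateFrobenius_def]
      exact hμp2
    have h2 : iterateFrobenius κ p 2 k = k := hle hk
    rwa [iterateFrobenius_def] at h2
  have hcard : p ^ 2 ≤ Nat.card F := by
    have : Fintype F := Fintype.ofFinite F
    obtain ⟨n, -, hn⟩ := FiniteField.card F p
    rw [Nat.card_eq_fintype_card, hn]
    have hn2 : 2 ≤ (n : ℕ) := by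
      by_contra hlt
      have hn1 : (n : ℕ) = 1 := by have := n.pos; omega
      rw [hn1, pow_one] at hn
      have h2 := FiniteField.pow_card (⟨μ, Subfield.subset_closure rfl⟩ : F)
      rw [hn] at h2
      exact hμp (congrArg Subtype.val h2)
    exact Nat.pow_le_pow_right hp.pos hn2
  set d : κ := c * c ^ p with hd
  have hd0 : d ≠ 0 := mul_ne_zero hc (pow_ne_zero _ hc)
  have hφ2 : ∀ w ∈ W, θ (φ ^ 2 * w * (φ ^ 2)⁻¹) = d * θ w ^ (p ^ 2) := by
    intro w hw
    have e : φ ^ 2 * w * (φ ^ 2)⁻¹ = φ * (φ * w * φ⁻¹) * φ⁻¹ := by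
      rw [pow_two, mul_inv_rev]
      simp only [mul_assoc]
    rw [e, hφ _ (hW.conj_mem w hw φ), hφ w hw, mul_pow, ← pow_mul, hd, pow_two, mul_assoc]
  set A := twFrob p F hF d with hA
  have key : ∀ G : Subgroup Γ, G ≤ W → (∀ h ∈ G, τ₀ * h * τ₀⁻¹ ∈ G) →
      (∀ h ∈ G, φ ^ 2 * h * (φ ^ 2)⁻¹ ∈ G) →
      ∃ S : Submodule F κ, (∀ x, x ∈ S ↔ ∃ g ∈ G, θ g = x) ∧ ∀ x ∈ S, A x ∈ S := by
    intro G hGW hGτ hGφ
    obtain ⟨S, hS⟩ := exists_theta_submodule W τ₀ θ μ hadd hτ G hGW hGτ
    refine ⟨S, hS, ?_⟩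
    intro x hx
    obtain ⟨g, hg, rfl⟩ := (hS x).1 hx
    rw [hS]
    exact ⟨φ ^ 2 * g * (φ ^ 2)⁻¹, hGφ g hg, by rw [hφ2 g (hGW hg)]; rfl⟩
  obtain ⟨SW, hSW, hSWst⟩ := key W le_rfl (fun h hh => hW.conj_mem h hh τ₀)
    (fun h hh => hW.conj_mem h hh (φ ^ 2))
  have hfd : FiniteDimensional F κ := Module.Finite.of_finite
  obtain ⟨v₀, hv₀, hv₀cyc⟩ := exists_cyclic_vector A
    (fun U _ g hg hlt => twFrob_indep p F hF hcard hd0 U g hg hlt) SW hSWst
  obtain ⟨w₀, hw₀, rfl⟩ := (hSW v₀).1 hv₀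
  refine ⟨w₀, hw₀, ?_⟩
  intro H hw₀H hHτ hHφ
  obtain ⟨SH, hSH, hSHst⟩ := key (H ⊓ W) inf_le_right
    (fun h hh => ⟨hHτ h hh.1, hW.conj_mem h hh.2 τ₀⟩)
    (fun h hh => ⟨hHφ h hh.1, hW.conj_mem h hh.2 (φ ^ 2)⟩)
  have hle : SW ≤ SH := hv₀cyc.trans (cyc_le hSHst ((hSH _).2 ⟨w₀, ⟨hw₀H, hw₀⟩, rfl⟩))
  intro w hw
  obtain ⟨h, hh, hθ⟩ := (hSH _).1 (hle ((hSW _).2 ⟨w, hw, rfl⟩))
  have h2 : θ (w * h⁻¹) = 0 := by
    rw [hadd w hw h⁻¹ (W.inv_mem hh.2), hinv h hh.2, hθ, add_neg_cancel]
  have h3 := hinj _ (W.mul_mem hw (W.inv_mem hh.2)) h2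
  rw [mul_inv_eq_one] at h3
  rw [h3]
  exact hh.1

end Assembly

end Fermat.Agent.S56.H769
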